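import Fermat.Agent.GR.F.Main

/-!
# GR-S (M-C): the Eichler-Shimura congruence for ALL nonzero functions (not only Kummer functions)
-/

set_option autoImplicit false

noncomputable section

namespace Fermat.Agent.GR.S

open Fermat.Agent.GR

variable {N : ℕ} (A : ValuationSubring Qbar)

/-- two multiplicative operators which are congruent modulo `𝔪_A` on integral series: their
quotient on any nonzero function is a constant times a quotient of two congruent primitive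
functions.  (Extracted from the proof of `GR.kummerEquiv_of_cong`.) -/
theorem exists_cong_of_cong
    (Φ Ψ : LaurentSeries Qbar →*₀ LaurentSeries Qbar)
    (hΦF : ∀ u ∈ FF Qbar N, Φ u ∈ FF Qbar N) (hΨF : ∀ u ∈ FF Qbar N, Ψ u ∈ FF Qbar N)
    (hΦC : ∀ c : Qbar, c ≠ 0 → ∃ c' : Qbar, c' ≠ 0 ∧ Φ (HahnSeries.C c) = HahnSeries.C c')
    (hΨC : ∀ c : Qbar, c ≠ 0 → ∃ c' : Qbar, c' ≠ 0 ∧ Ψ (HahnSeries.C c) = HahnSeries.C c')
    (hcong : ∀ f : LaurentSeries A, red A f ≠ 0 → ∃ a b : LaurentSeries A,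
      incl A a = Φ (incl A f) ∧ incl A b = Ψ (incl A f) ∧ red A a = red A b ∧ red A a ≠ 0)
    {u : LaurentSeries Qbar} (hu : u ∈ FF Qbar N) (hu0 : u ≠ 0) :
    ∃ (κ : Qbar) (a b : LaurentSeries Qbar), κ ≠ 0 ∧ a ∈ FF Qbar N ∧ b ∈ FF Qbar N ∧
      IsPrim A a ∧ IsPrim A b ∧ Cong A a b ∧ Φ u * b = HahnSeries.C κ * (Ψ u * a) := by
  obtain ⟨κ, F, G, hκ, hFF, hGF, hF, hG, hu_eq⟩ := exists_normalized A N hu hu0
  obtain ⟨f, rfl, hf⟩ := (isPrim_iff A).mp hF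
  obtain ⟨g, rfl, hg⟩ := (isPrim_iff A).mp hG
  obtain ⟨af, bf, haf, hbf, hredf, hredf0⟩ := hcong f hf
  obtain ⟨ag, bg, hag, hbg, hredg, hredg0⟩ := hcong g hg
  obtain ⟨c₁, hc₁, hΦκ⟩ := hΦC κ hκ
  obtain ⟨c₂, hc₂, hΨκ⟩ := hΨC κ hκ
  have hinj := incl_injective A
  have hne : ∀ x : LaurentSeries A, red A x ≠ 0 → incl A x ≠ 0 := by
    intro x hx h0
    apply hx
    rw [show x = 0 from hinj (by rw [h0, map_zero]), map_zero]
  have hbf0 : red A bf ≠ 0 := hredf ▸ hredf0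
  have hbg0 : red A bg ≠ 0 := hredg ▸ hredg0
  have hC₁ : (HahnSeries.C c₁ : LaurentSeries Qbar) ≠ 0 := by
    simpa using hc₁
  have hC₂ : (HahnSeries.C c₂ : LaurentSeries Qbar) ≠ 0 := by
    simpa using hc₂
  have hΦu : Φ u = HahnSeries.C c₁ * (incl A af / incl A ag) := by
    rw [hu_eq, map_mul, map_div₀, hΦκ, haf, hag]
  have hΨu : Ψ u = HahnSeries.C c₂ * (incl A bf / incl A bg) := by
    rw [hu_eq, map_mul, map_div₀, hΨκ, hbf, hbg]
  refine ⟨c₁ / c₂, incl A (af * bg), incl A (bf * ag), div_ne_zero hc₁ hc₂, ?_, ?_, ?_, ?_, ?_, ?_⟩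
  · rw [map_mul, haf, hbg]; exact mul_mem (hΦF _ hFF) (hΨF _ hGF)
  · rw [map_mul, hbf, hag]; exact mul_mem (hΨF _ hFF) (hΦF _ hGF)
  · exact (isPrim_incl_iff A _).mpr (by rw [map_mul]; exact mul_ne_zero hredf0 hbg0)
  · exact (isPrim_incl_iff A _).mpr (by rw [map_mul]; exact mul_ne_zero hbf0 hredg0)
  · exact (cong_incl_iff A _ _).mpr (by rw [map_mul, map_mul, hredf, hredg])
  · rw [hΦu, hΨu, map_mul, map_mul, map_div₀]
    have h1 := hne af hredf0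
    have h2 := hne ag hredg0
    have h3 := hne bf hbf0
    have h4 := hne bg hbg0
    field_simp

open ModularCurve in
/-- `T_ℓ u ≡ σ(u) σ⁻¹(u)^ℓ` for a Frobenius `σ`. -/
theorem exists_cong_heckeMulT {ℓ : ℕ} [Fact ℓ.Prime] (hA : A.LiesOverPrime ℓ)
    (ζ : Qbarˣ) (hζ : IsPrimitiveRoot ζ ℓ)
    (hhecke : ∀ u : LaurentSeries Qbar, u ∈ FF Qbar N → heckeMulT ℓ ζ u ∈ FF Qbar N)
    {σ : Qbar ≃ₐ[ℚ] Qbar} (hσ : A.IsFrobeniusAt σ ℓ)
    {u : LaurentSeries Qbar} (hu : u ∈ FF Qbar N) (hu0 : u ≠ 0) :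
    ∃ (κ : Qbar) (a b : LaurentSeries Qbar), κ ≠ 0 ∧ a ∈ FF Qbar N ∧ b ∈ FF Qbar N ∧
      IsPrim A a ∧ IsPrim A b ∧ Cong A a b ∧
      heckeMulT ℓ ζ u * b = HahnSeries.C κ * (gal σ u * gal σ⁻¹ u ^ ℓ * a) := by
  have := charP_residueField A hA
  obtain ⟨z, hz, hz1⟩ := exists_unit_of_pow_eq_one A hA ζ hζ.pow_eq_one
  set τ : A.decompositionSubgroup ℚ := ⟨σ, hσ.mem_decompositionSubgroup⟩ with hτ
  have hfrobinj : Function.Injective
      (coeffMap (frobenius (IsLocalRing.ResidueField A) ℓ)) := by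
    intro x y hxy
    ext k
    have := congrArg (fun s => s.coeff k) hxy
    exact (frobenius (IsLocalRing.ResidueField A) ℓ).injective this
  refine exists_cong_of_cong A (heckeMulTHom ℓ ζ hζ) (frobSumHom ℓ σ)
    hhecke (fun u hu => mul_mem (coeffMap_mem_FF _ hu) (pow_mem (coeffMap_mem_FF _ hu) _))
    (fun c hc => ⟨_, pow_ne_zero _ hc, heckeMulT_C ℓ ζ c⟩)
    (fun c hc => ⟨σ c * σ⁻¹ c ^ ℓ,
      mul_ne_zero ((map_ne_zero _).mpr hc) (pow_ne_zero _ ((map_ne_zero _).mpr hc)), ?_⟩)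
    (fun f hf => ⟨heckeMulT ℓ z f, coeffMap (actA A τ) f * coeffMap (actA A τ⁻¹) f ^ ℓ,
      ?_, ?_, ?_, ?_⟩) hu hu0
  · show gal σ _ * gal σ⁻¹ _ ^ ℓ = _
    rw [gal_C, gal_C, map_mul, map_pow]
  · show incl A (heckeMulT ℓ z f) = heckeMulT ℓ ζ (incl A f)
    rw [incl, coeffMap_heckeMulT, hz]
  · show _ = gal σ (incl A f) * gal σ⁻¹ (incl A f) ^ ℓ
    rw [map_mul, map_pow, incl_coeffMap_actA, incl_coeffMap_actA]
    rfl
  · have h1 : red A (heckeMulT ℓ z f) =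
        qExpand _ ℓ (red A f) * coeffMap (frobenius (IsLocalRing.ResidueField A) ℓ) (red A f) := by
      rw [red, coeffMap_heckeMulT, hz1, heckeMulT, normT_one_char]
    have h2 : red A (coeffMap (actA A τ⁻¹) f) ^ ℓ = qExpand _ ℓ (red A f) := by
      rw [pow_char_eq_qExpand, ← red_actA_of_isFrobeniusAt A σ hσ, coeffMap_actA_actA_inv]
    rw [h1, map_mul, map_pow, h2, red_actA_of_isFrobeniusAt A σ hσ, mul_comm]
  · have h1 : red A (heckeMulT ℓ z f) =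
        qExpand _ ℓ (red A f) * coeffMap (frobenius (IsLocalRing.ResidueField A) ℓ) (red A f) := by
      rw [red, coeffMap_heckeMulT, hz1, heckeMulT, normT_one_char]
    rw [h1]
    refine mul_ne_zero ?_ ?_
    · exact fun h => hf (qExpand_injective ℓ (by rw [h, map_zero]))
    · exact fun h => hf (hfrobinj (by rw [h, map_zero]))

end Fermat.Agent.GR.S
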