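import Fermat.Agent.GR.S.FF.NormFormula
import Fermat.Agent.GR.S.Bridge
import Fermat.Prelude.Def_ModularCurve_HeckeModule

/-!
# GR-S: the inputs of the Prelude's Hecke operator on `J₀(N)(Q̄)` and its explicit formula
-/

set_option autoImplicit false

noncomputable section

open AlgebraicCurve ModularCurve Fermat.Agent.S17.FF

namespace Fermat.Agent.GR.S

instance isFF_bar (N : ℕ) [NeZero N] : IsFF Kb (modularFunctionFieldBar N) :=
  ⟨Fermat.Agent.S24.jF N, Fermat.Agent.S24.transcendental_jF N, inferInstance⟩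

instance hasPrincipalDivisors_bar' (N : ℕ) [NeZero N] :
    HasPrincipalDivisors Kb (modularFunctionFieldBar N) := hasPrincipalDivisors_bar N

variable (N ℓ : ℕ) [NeZero N] [NeZero ℓ]

theorem heckeAlphaBarIntegral : HeckeAlphaBarIntegral Kb N ℓ :=
  isIntegral_along' _

theorem heckeBetaBarIntegral : HeckeBetaBarIntegral Kb N ℓ :=
  isIntegral_along' _

theorem heckeInputsAlong_bar : HeckeInputsAlong Kb N ℓ :=
  heckeInputsAlong_intro (heckeAlphaBarIntegral N ℓ) (heckeBetaBarIntegral N ℓ)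
    (fundamentalIdentityAlong _ _) (finiteAlong _) (normFormulaAlong _ _)

/-- the Hecke correspondence on divisors. -/
def heckeDiv : Divisor Kb (modularFunctionFieldBar N) →+ Divisor Kb (modularFunctionFieldBar N) :=
  heckeDivBar (heckeAlphaBarIntegral N ℓ) (heckeBetaBarIntegral N ℓ)

theorem heckeDiv_apply (D : Divisor Kb (modularFunctionFieldBar N)) :
    heckeDiv N ℓ D = Divisor.pushforwardAlong (heckeAlphaBar Kb N ℓ) (heckeAlphaBarIntegral N ℓ)
      (Divisor.pullbackAlong (heckeBetaBar Kb N ℓ) (heckeBetaBarIntegral N ℓ) D) := rfl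

theorem heckeDiv_mem_degZero {D : Divisor Kb (modularFunctionFieldBar N)}
    (hD : D ∈ Divisor.degZero (K := Kb) (F := modularFunctionFieldBar N)) :
    heckeDiv N ℓ D ∈ Divisor.degZero (K := Kb) (F := modularFunctionFieldBar N) :=
  Divisor.correspondence_mem_degZero _ _ _ _ (fundamentalIdentityAlong _ _) hD

theorem heckeOperatorAlong_mk
    (D : Divisor.degZero (K := Kb) (F := modularFunctionFieldBar N)) :
    heckeOperatorAlong Kb N ℓ (Pic0.mk D) =
      Pic0.mk ⟨heckeDiv N ℓ D, heckeDiv_mem_degZero N ℓ D.2⟩ := by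
  rw [heckeOperatorAlong_eq (heckeAlphaBarIntegral N ℓ) (heckeBetaBarIntegral N ℓ)
    (fundamentalIdentityAlong _ _) (finiteAlong _) (normFormulaAlong _ _)]
  rfl

/-- `T_ℓ (div f) = div (N_α (β f))`. -/
theorem heckeDiv_divf (f : modularFunctionFieldBar N) (hf : f ≠ 0) :
    heckeDiv N ℓ (divf f) =
      divf (letI := algebraAlong (heckeAlphaBar Kb N ℓ)
        Algebra.norm (modularFunctionFieldBar N) (heckeBetaBar Kb N ℓ f)) := by
  rw [heckeDiv_apply, pullbackAlong_divf, pushforwardAlong_divf]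
  exact (map_ne_zero _).mpr hf

theorem l1_heckeDiv_le (D : Divisor Kb (modularFunctionFieldBar N)) :
    l1 (heckeDiv N ℓ D) ≤ finrankAlong Kb (heckeBetaBar Kb N ℓ) * l1 D :=
  (l1_pushforwardAlong_le (heckeAlphaBar Kb N ℓ) (heckeAlphaBarIntegral N ℓ) _).trans
    (l1_pullbackAlong_le _ _ _)

end Fermat.Agent.GR.S
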