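import Fermat.Agent.GR.S.Bridge
import Fermat.Agent.GR.B.Export
import Fermat.Agent.GR.E.BR10
import Fermat.Prelude.Def_ModularCurve_HeckeModule
import Fermat.Agent.GT.EMB.AtkinLehner
import Fermat.Agent.GR.F.FormalNorm
import Fermat.Agent.S24.InducedPlace
import Fermat.Prelude.Thm_ModularCurve_coeff_jqModC_neg_one

/-!
# GR-S (NH): the norm along `α : F_N → F_{Nℓ}` of `β u = u(q^ℓ)` is the multiplicative Hecke
operator `heckeMulT ℓ ζ u = u(q^ℓ) ∏_j u(ζ^j q^{1/ℓ})`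

Proof (formal, given the Atkin-Lehner embedding `W` of `F_{Nℓ}`, `W (j(q^d)) = j(q^{ℓ d})`,
`W (j(q^{ℓ d})) = j(q^d)` for `d ∣ N`, from `GT/EMB/AtkinLehner.lean`).  The `ℓ + 1` ring homs
`F_{Nℓ} → K((t))`, `f ↦ f(t^ℓ)` and `f ↦ (W f)(ζ^b t)` (`b < ℓ`), are pairwise distinct and agree
on `F_N` (where they are `y ↦ y(t^ℓ)`); they map `β u` to `u(t^{ℓ²})`, resp. to `u(ζ^b t)`.
-/

set_option autoImplicit false

noncomputable section

open AlgebraicCurve ModularCurve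

namespace Fermat.Agent.GR.S

open Fermat.Agent.GR

/-- ABSTRACT: the norm from `E'` to `E` (algebra structure given by the inclusion `a`) is the
product of the conjugates, for a family of `[E' : E]` distinct ring homs which agree on `E`. -/
theorem Norm_norm_along {K M L : Type*} [Field K] [Field M] [Field L] [Algebra K M] [CharZero K]
    {E E' : IntermediateField K M} (a : E →ₐ[K] E') (ha : ∀ x : E, ((a x : E') : M) = x)
    {X : Type*} [Fintype X]
    (hdeg : E.relfinrank E' = Fintype.card X) (φ : X → E' →+* L)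
    (hagree : ∀ i i' (r : E), φ i (a r) = φ i' (a r))
    (hinj : Function.Injective φ) (i0 : X) (f : E') :
    letI := algebraAlong a
    φ i0 (a (Algebra.norm E f)) = ∏ i, φ i f := by
  let _ : Algebra E E' := algebraAlong a
  show φ i0 (a (Algebra.norm E f)) = ∏ i, φ i f
  have hle : E ≤ E' := fun x hx => by
    have := (a ⟨x, hx⟩).2
    rwa [ha] at this
  let e : E' ≃ₗ[E] IntermediateField.extendScalars hle :=
    { toFun := fun x => ⟨x.1, x.2⟩
      invFun := fun x => ⟨x.1, x.2⟩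
      map_add' := fun x y => rfl
      map_smul' := fun c x => Subtype.ext (by
        change ((a c * x : E') : M) = (c : M) * (x : M)
        rw [IntermediateField.coe_mul, ha])
      left_inv := fun x => rfl
      right_inv := fun x => rfl }
  have hfr : Module.finrank E E' = Fintype.card X := by
    rw [e.finrank_eq, ← IntermediateField.relfinrank_eq_finrank_of_le hle, hdeg]
  have hpos : 0 < Fintype.card X := Fintype.card_pos_iff.2 ⟨i0⟩
  have : FiniteDimensional E E' := Module.finite_of_finrank_pos (by rw [hfr]; exact hpos)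
  have : CharZero E := charZero_of_injective_algebraMap (algebraMap K E).injective
  exact Fermat.Agent.S24.induced_norm_eq_prod φ hagree hinj hfr.symm i0 f

theorem Norm_scaleHom_qExpand {Λ : Type*} [CommRing Λ] (ℓ : ℕ) [NeZero ℓ] (c : Λˣ)
    (hc : c ^ ℓ = 1) (f : LaurentSeries Λ) : scaleHom c (qExpand Λ ℓ f) = qExpand Λ ℓ f := by
  ext n
  rw [scaleHom_coeff]
  by_cases hn : (ℓ : ℤ) ∣ n
  · obtain ⟨k, rfl⟩ := hn
    rw [zpow_mul, zpow_natCast, hc, one_zpow, Units.val_one, one_mul]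
  · rw [qExpand_coeff_of_not_dvd ℓ _ hn, mul_zero]

theorem Norm_qExpand_jd (K : Type*) [Field K] (ℓ d : ℕ) [NeZero ℓ] (hd : d ≠ 0) :
    qExpand K ℓ (GT.EMB.jd K d) = GT.EMB.jd K (ℓ * d) := by
  have : NeZero d := ⟨hd⟩
  have : NeZero (ℓ * d) := ⟨mul_ne_zero (NeZero.ne ℓ) hd⟩
  rw [GT.EMB.jd_eq, GT.EMB.jd_eq, qExpand_qExpand]

theorem Norm_qExpand_algebraMap (K : Type*) [Field K] (ℓ : ℕ) [NeZero ℓ] (c : K) :
    qExpand K ℓ (algebraMap K (LaurentSeries K) c) = algebraMap K (LaurentSeries K) c := by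
  rw [algebraMap_laurentSeries_eq_single, qExpand_single, mul_zero]

/-- an embedding of `ℚ̄` in `ℂ`. -/
def Norm_iota : Kb →+* ℂ :=
  haveI : Algebra.IsAlgebraic ℚ Kb := AlgebraicClosure.isAlgebraic ℚ
  (IsAlgClosed.lift (R := ℚ) (S := Kb) (M := ℂ)).toRingHom

/-- The Atkin-Lehner embedding of `F_{Nℓ}`: it exchanges `α` and `β`. -/
theorem Norm_exists_W (N ℓ : ℕ) [NeZero N] [NeZero ℓ] (hℓ : ℓ.Prime) (hℓN : ¬ ℓ ∣ N) :
    ∃ W : modularFunctionFieldBar (N * ℓ) →+* LaurentSeries Kb,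
      (∀ y : modularFunctionFieldBar N,
        W (heckeAlphaBar Kb N ℓ y) = qExpand Kb ℓ (y : LaurentSeries Kb)) ∧
      (∀ y : modularFunctionFieldBar N, W (heckeBetaBar Kb N ℓ y) = (y : LaurentSeries Kb)) := by
  have hNe : NeZero (ℓ * N) := ⟨mul_ne_zero (NeZero.ne ℓ) (NeZero.ne N)⟩
  have hcop : ℓ.Coprime N := (Nat.Prime.coprime_iff_not_dvd hℓ).2 hℓN
  obtain ⟨W₀, hW₀⟩ := GT.EMB.exists_wEmb Norm_iota ℓ N hcop
  have h1 : modularFunctionFieldBar (N * ℓ) = FF Kb (ℓ * N) := by rw [bar_eq_FF, mul_comm]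
  have h2 : FF Kb N = modularFunctionFieldBar N := (bar_eq_FF N).symm
  let i1 : modularFunctionFieldBar (N * ℓ) →ₐ[Kb] FF Kb (ℓ * N) :=
    IntermediateField.inclusion (le_of_eq h1)
  let i2 : FF Kb N →ₐ[Kb] modularFunctionFieldBar N := IntermediateField.inclusion (le_of_eq h2)
  have hi2 : ∀ y : modularFunctionFieldBar N, ∃ x : FF Kb N, i2 x = y := fun y =>
    ⟨⟨y.1, by rw [h2]; exact y.2⟩, rfl⟩
  let W : modularFunctionFieldBar (N * ℓ) →+* LaurentSeries Kb :=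
    (W₀ : FF Kb (ℓ * N) →+* LaurentSeries Kb).comp (i1 : _ →+* FF Kb (ℓ * N))
  have hd0 : ∀ d, d ∣ N → d ≠ 0 := fun d hd h0 =>
    NeZero.ne N (Nat.eq_zero_of_zero_dvd (h0 ▸ hd))
  -- `W ∘ α = qExpand ℓ`
  have hA : (W.comp ((heckeAlphaBar Kb N ℓ : _ →+* modularFunctionFieldBar (N * ℓ)).comp
      (i2 : FF Kb N →+* modularFunctionFieldBar N))) =
      (qExpand Kb ℓ).comp ((FF Kb N).val : FF Kb N →+* LaurentSeries Kb) := by
    refine GT.EMB.ringHom_ext_gen N _ _ (fun c => ?_) (fun d hd => ?_)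
    · have e1 : i1 (heckeAlphaBar Kb N ℓ (i2 (algebraMap Kb (FF Kb N) c))) =
          algebraMap Kb (FF Kb (ℓ * N)) c := by
        rw [AlgHom.commutes, AlgHom.commutes, AlgHom.commutes]
      change W₀ (i1 (heckeAlphaBar Kb N ℓ (i2 (algebraMap Kb (FF Kb N) c)))) =
        qExpand Kb ℓ (algebraMap Kb (LaurentSeries Kb) c)
      rw [e1, AlgHom.commutes, Norm_qExpand_algebraMap]
    · have e1 : i1 (heckeAlphaBar Kb N ℓ (i2 (GT.EMB.gen Kb N d hd))) =
          GT.EMB.gen Kb (ℓ * N) d (hd.trans (Dvd.intro_left ℓ rfl)) := Subtype.ext rfl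
      change W₀ (i1 (heckeAlphaBar Kb N ℓ (i2 (GT.EMB.gen Kb N d hd)))) =
        qExpand Kb ℓ (GT.EMB.jd Kb d)
      rw [e1, hW₀, Norm_qExpand_jd Kb ℓ d (hd0 d hd)]
      have := GT.EMB.alIdx_mul hcop (one_dvd ℓ) hd
      rw [one_mul, Nat.div_one] at this
      rw [this]
  -- `W ∘ β = id`
  have hB : (W.comp ((heckeBetaBar Kb N ℓ : _ →+* modularFunctionFieldBar (N * ℓ)).comp
      (i2 : FF Kb N →+* modularFunctionFieldBar N))) =
      ((FF Kb N).val : FF Kb N →+* LaurentSeries Kb) := by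
    refine GT.EMB.ringHom_ext_gen N _ _ (fun c => ?_) (fun d hd => ?_)
    · have e1 : i1 (heckeBetaBar Kb N ℓ (i2 (algebraMap Kb (FF Kb N) c))) =
          algebraMap Kb (FF Kb (ℓ * N)) c := by
        rw [AlgHom.commutes, AlgHom.commutes, AlgHom.commutes]
      change W₀ (i1 (heckeBetaBar Kb N ℓ (i2 (algebraMap Kb (FF Kb N) c)))) =
        algebraMap Kb (LaurentSeries Kb) c
      rw [e1, AlgHom.commutes]
    · have e1 : i1 (heckeBetaBar Kb N ℓ (i2 (GT.EMB.gen Kb N d hd))) =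
          GT.EMB.gen Kb (ℓ * N) (ℓ * d) (Nat.mul_dvd_mul_left ℓ hd) :=
        Subtype.ext (Norm_qExpand_jd Kb ℓ d (hd0 d hd))
      change W₀ (i1 (heckeBetaBar Kb N ℓ (i2 (GT.EMB.gen Kb N d hd)))) = GT.EMB.jd Kb d
      rw [e1, hW₀, GT.EMB.alIdx_mul hcop (dvd_refl ℓ) hd, Nat.div_self hℓ.pos, one_mul]
  refine ⟨W, fun y => ?_, fun y => ?_⟩
  · obtain ⟨x, rfl⟩ := hi2 y
    exact RingHom.congr_fun hA x
  · obtain ⟨x, rfl⟩ := hi2 y
    exact RingHom.congr_fun hB x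

/-- the `ℓ + 1` embeddings. -/
def Norm_phi (N ℓ : ℕ) [NeZero ℓ] (ζ : Kbˣ)
    (W : modularFunctionFieldBar (N * ℓ) →+* LaurentSeries Kb) :
    Option (Fin ℓ) → modularFunctionFieldBar (N * ℓ) →+* LaurentSeries Kb
  | none => (qExpand Kb ℓ).comp
        ((modularFunctionFieldBar (N * ℓ)).val : _ →+* LaurentSeries Kb)
  | some b => (scaleHom (ζ ^ (b : ℕ))).comp W

theorem Norm_phi_none (N ℓ : ℕ) [NeZero ℓ] (ζ : Kbˣ)
    (W : modularFunctionFieldBar (N * ℓ) →+* LaurentSeries Kb)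
    (x : modularFunctionFieldBar (N * ℓ)) :
    Norm_phi N ℓ ζ W none x = qExpand Kb ℓ (x : LaurentSeries Kb) := rfl

theorem Norm_phi_some (N ℓ : ℕ) [NeZero ℓ] (ζ : Kbˣ)
    (W : modularFunctionFieldBar (N * ℓ) →+* LaurentSeries Kb) (b : Fin ℓ)
    (x : modularFunctionFieldBar (N * ℓ)) :
    Norm_phi N ℓ ζ W (some b) x = scaleHom (ζ ^ (b : ℕ)) (W x) := rfl

theorem Norm_phi_alpha (N ℓ : ℕ) [NeZero N] [NeZero ℓ] (ζ : Kbˣ) (hζ : ζ ^ ℓ = 1)
    (W : modularFunctionFieldBar (N * ℓ) →+* LaurentSeries Kb)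
    (hWα : ∀ y : modularFunctionFieldBar N,
        W (heckeAlphaBar Kb N ℓ y) = qExpand Kb ℓ (y : LaurentSeries Kb))
    (o : Option (Fin ℓ)) (y : modularFunctionFieldBar N) :
    Norm_phi N ℓ ζ W o (heckeAlphaBar Kb N ℓ y) = qExpand Kb ℓ (y : LaurentSeries Kb) := by
  cases o with
  | none => rw [Norm_phi_none, coe_heckeAlphaBar]
  | some b =>
    rw [Norm_phi_some, hWα, Norm_scaleHom_qExpand]
    rw [← pow_mul, mul_comm, pow_mul, hζ, one_pow]

theorem Norm_phi_injective (N ℓ : ℕ) [NeZero N] [NeZero ℓ] (hℓ : ℓ.Prime)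
    (ζ : Kbˣ) (hζ : IsPrimitiveRoot ζ ℓ)
    (W : modularFunctionFieldBar (N * ℓ) →+* LaurentSeries Kb)
    (hWβ : ∀ y : modularFunctionFieldBar N, W (heckeBetaBar Kb N ℓ y) = (y : LaurentSeries Kb)) :
    Function.Injective (Norm_phi N ℓ ζ W) := by
  have hjmem : jqModC Kb ∈ modularFunctionFieldBar N := by
    rw [bar_eq_FF]
    have := GT.EMB.jd_mem Kb (NeZero.ne N) (one_dvd N)
    rwa [GT.EMB.jd_eq, qExpand_one_apply] at this
  have hℓ1 : ¬ (ℓ : ℤ) ∣ -1 := by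
    rw [Int.dvd_neg]
    intro h
    have := Int.eq_one_of_dvd_one (by positivity) h
    exact hℓ.one_lt.ne' (by exact_mod_cast this)
  have hcn : (Norm_phi N ℓ ζ W none (heckeBetaBar Kb N ℓ ⟨jqModC Kb, hjmem⟩)).coeff (-1) = 0 := by
    rw [Norm_phi_none]
    exact qExpand_coeff_of_not_dvd ℓ _ hℓ1
  have hcs : ∀ b : Fin ℓ,
      (Norm_phi N ℓ ζ W (some b) (heckeBetaBar Kb N ℓ ⟨jqModC Kb, hjmem⟩)).coeff (-1) =
      (((ζ ^ (b : ℕ)) ^ (-1 : ℤ) : Kbˣ) : Kb) := by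
    intro b
    rw [Norm_phi_some, hWβ, scaleHom_coeff, coeff_jqModC_neg_one, mul_one]
  intro o o' hoo'
  cases o with
  | none =>
    cases o' with
    | none => rfl
    | some b' =>
      exfalso
      have h := hcn
      rw [hoo', hcs] at h
      exact Units.ne_zero _ h
  | some b =>
    cases o' with
    | none =>
      exfalso
      have h := hcn
      rw [← hoo', hcs] at h
      exact Units.ne_zero _ h
    | some b' =>
      have h := hcs b
      rw [hoo', hcs] at h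
      have h2 : ζ ^ (b' : ℕ) = ζ ^ (b : ℕ) := by
        have := Units.ext h
        rwa [zpow_neg_one, zpow_neg_one, inv_inj] at this
      exact congrArg some (Fin.ext (hζ.pow_inj b.2 b'.2 h2.symm))

theorem Norm_relfinrank (N ℓ : ℕ) [NeZero N] (hℓ : ℓ.Prime) (hℓN : ¬ ℓ ∣ N) :
    (modularFunctionFieldBar N).relfinrank (modularFunctionFieldBar (N * ℓ)) =
      Fintype.card (Option (Fin ℓ)) := by
  rw [bar_eq_FF, bar_eq_FF, Fintype.card_option, Fintype.card_fin]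
  exact E.relfinrank_FF_mul_prime N ℓ hℓ hℓN

theorem Norm_key (N ℓ : ℕ) [NeZero N] [NeZero ℓ] (hℓ : ℓ.Prime) (hℓN : ¬ ℓ ∣ N)
    (ζ : Kbˣ) (hζ : IsPrimitiveRoot ζ ℓ) (u : modularFunctionFieldBar N)
    (W : modularFunctionFieldBar (N * ℓ) →+* LaurentSeries Kb)
    (hWα : ∀ y : modularFunctionFieldBar N,
        W (heckeAlphaBar Kb N ℓ y) = qExpand Kb ℓ (y : LaurentSeries Kb))
    (hWβ : ∀ y : modularFunctionFieldBar N, W (heckeBetaBar Kb N ℓ y) = (y : LaurentSeries Kb)) :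
    letI := algebraAlong (heckeAlphaBar Kb N ℓ)
    Norm_phi N ℓ ζ W none (heckeAlphaBar Kb N ℓ
      (Algebra.norm (modularFunctionFieldBar N) (heckeBetaBar Kb N ℓ u))) =
      ∏ i, Norm_phi N ℓ ζ W i (heckeBetaBar Kb N ℓ u) :=
  Norm_norm_along (heckeAlphaBar Kb N ℓ) (coe_heckeAlphaBar N ℓ) (Norm_relfinrank N ℓ hℓ hℓN)
    (Norm_phi N ℓ ζ W)
    (fun i i' r => by
      rw [Norm_phi_alpha N ℓ ζ hζ.pow_eq_one W hWα, Norm_phi_alpha N ℓ ζ hζ.pow_eq_one W hWα])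
    (Norm_phi_injective N ℓ hℓ ζ hζ W hWβ) none (heckeBetaBar Kb N ℓ u)

theorem norm_heckeBeta (N ℓ : ℕ) [NeZero N] [NeZero ℓ] (hℓ : ℓ.Prime) (hℓN : ¬ ℓ ∣ N)
    (ζ : Kbˣ) (hζ : IsPrimitiveRoot ζ ℓ) (u : modularFunctionFieldBar N) :
    (((letI := algebraAlong (heckeAlphaBar Kb N ℓ)
      Algebra.norm (modularFunctionFieldBar N) (heckeBetaBar Kb N ℓ u)) :
        modularFunctionFieldBar N) : LaurentSeries Kb) =
      heckeMulT ℓ ζ (u : LaurentSeries Kb) := by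
  obtain ⟨W, hWα, hWβ⟩ := Norm_exists_W N ℓ hℓ hℓN
  have key := Norm_key N ℓ hℓ hℓN ζ hζ u W hWα hWβ
  rw [Norm_phi_alpha N ℓ ζ hζ.pow_eq_one W hWα, Fintype.prod_option, Norm_phi_none,
    coe_heckeBetaBar] at key
  apply qExpand_injective (R := Kb) ℓ
  refine key.trans ?_
  unfold heckeMulT
  rw [map_mul, qExpand_normT ℓ ζ hζ, ← Fin.prod_univ_eq_prod_range
    (fun j => scaleHom (ζ ^ j) (u : LaurentSeries Kb)) ℓ]
  congr 1
  refine Finset.prod_congr rfl (fun b _ => ?_)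
  rw [Norm_phi_some, hWβ]

end Fermat.Agent.GR.S
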